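import Mathlib

/-!
# Program G, package Per, leaf C1: Nakayama + functional

`gpra_exists_functional`: a commutative ring `R`, finite over `ℤ`, acting faithfully on a
finitely generated abelian group `M`; a character `χ : R → k` to a field of characteristic `p`.
Then there is a nonzero additive `x : M → k` with `x (r • m) = χ r * x m`.
-/

set_option autoImplicit false

namespace Fermat.Agent.G

open scoped Pointwise IsMulCommutative

section Abstract

variable {R : Type*} [CommRing R] {M : Type*} [AddCommGroup M] [Module R M]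

/-- Nakayama + functional, with values in the residue field of the kernel of `χ`. -/
theorem gpra_exists_functional_quot [Module.Finite ℤ R] [Module.Finite ℤ M]
    (hfaith : ∀ r : R, (∀ m : M, r • m = 0) → r = 0)
    {p : ℕ} (hp : p.Prime) {k : Type*} [Field k] [CharP k p] (χ : R →+* k) :
    (RingHom.ker χ).IsMaximal ∧ Finite (R ⧸ RingHom.ker χ) ∧
      ∃ x : M →+ (R ⧸ RingHom.ker χ), x ≠ 0 ∧
        ∀ (r : R) (m : M), x (r • m) = Ideal.Quotient.mk (RingHom.ker χ) r * x m := by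
  classical
  set 𝔪 : Ideal R := RingHom.ker χ with h𝔪
  have hprime : 𝔪.IsPrime := RingHom.ker_isPrime χ
  have hpmem : (p : R) ∈ 𝔪 := by
    rw [h𝔪, RingHom.mem_ker, map_natCast]
    exact CharP.cast_eq_zero k p
  -- `𝔪` is maximal
  have hint : Algebra.IsIntegral ℤ R := Algebra.IsIntegral.of_finite ℤ R
  have hcomap : (𝔪.comap (algebraMap ℤ R)) = Ideal.span {(p : ℤ)} := by
    have hpm : Ideal.span {(p : ℤ)} ≤ 𝔪.comap (algebraMap ℤ R) := by
      rw [Ideal.span_le, Set.singleton_subset_iff]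
      show algebraMap ℤ R (p : ℤ) ∈ 𝔪
      rw [eq_intCast, Int.cast_natCast]
      exact hpmem
    have hmax : (Ideal.span {(p : ℤ)}).IsMaximal :=
      PrincipalIdealRing.isMaximal_of_irreducible
        (Nat.prime_iff_prime_int.mp hp).irreducible
    exact (hmax.eq_of_le (Ideal.comap_ne_top _ hprime.ne_top) hpm).symm
  have hmax : 𝔪.IsMaximal := by
    apply Ideal.isMaximal_of_isIntegral_of_isMaximal_comap (R := ℤ) 𝔪
    rw [hcomap]
    exact PrincipalIdealRing.isMaximal_of_irreducible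
      (Nat.prime_iff_prime_int.mp hp).irreducible
  -- the residue field is finite
  have hfin : Finite (R ⧸ 𝔪) := by
    have h1 : Module.Finite ℤ (R ⧸ 𝔪) :=
      Module.Finite.of_surjective (Ideal.Quotient.mkₐ ℤ 𝔪).toLinearMap
        (Ideal.Quotient.mkₐ_surjective ℤ 𝔪)
    refine Module.finite_of_fg_torsion (R ⧸ 𝔪) ?_
    intro y
    have hp0 : (p : ℤ) ∈ nonZeroDivisors ℤ :=
      mem_nonZeroDivisors_of_ne_zero (by exact_mod_cast hp.ne_zero)
    refine ⟨⟨(p : ℤ), hp0⟩, ?_⟩
    obtain ⟨r, rfl⟩ := Ideal.Quotient.mk_surjective y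
    show (p : ℤ) • (Ideal.Quotient.mk 𝔪 r) = 0
    rw [← map_zsmul, Ideal.Quotient.eq_zero_iff_mem, zsmul_eq_mul, Int.cast_natCast]
    exact 𝔪.mul_mem_right r hpmem
  refine ⟨hmax, hfin, ?_⟩
  -- Nakayama
  have : Module.Finite R M := Module.Finite.of_restrictScalars_finite ℤ R M
  have hne : (𝔪 • (⊤ : Submodule R M)) ≠ ⊤ := by
    intro htop
    obtain ⟨r, hr1, hr2⟩ := Submodule.exists_sub_one_mem_and_smul_eq_zero_of_fg_of_le_smul 𝔪
      (⊤ : Submodule R M) Module.Finite.fg_top (by rw [htop])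
    have hr0 : r = 0 := hfaith r fun m => hr2 m Submodule.mem_top
    rw [hr0, zero_sub, neg_mem_iff] at hr1
    exact hprime.ne_top ((Ideal.eq_top_iff_one 𝔪).mpr hr1)
  obtain ⟨m₁, -, hm₁⟩ := SetLike.exists_of_lt (lt_top_iff_ne_top.mpr hne)
  -- the quotient vector space
  let _ : Field (R ⧸ 𝔪) := Ideal.Quotient.field 𝔪
  set W := M ⧸ (𝔪 • (⊤ : Submodule R M)) with hW
  have hw : (Submodule.Quotient.mk m₁ : W) ≠ 0 := by
    rw [Ne, Submodule.Quotient.mk_eq_zero]
    exact hm₁
  obtain ⟨f, hf⟩ := Module.Projective.exists_dual_ne_zero (R ⧸ 𝔪) hw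
  let x : M →+ (R ⧸ 𝔪) :=
    (f : W →+ (R ⧸ 𝔪)).comp ((Submodule.mkQ (𝔪 • (⊤ : Submodule R M))) : M →+ W)
  refine ⟨x, ?_, ?_⟩
  · intro hx
    have := DFunLike.congr_fun hx m₁
    simp only [x, AddMonoidHom.comp_apply, AddMonoidHom.zero_apply] at this
    exact hf this
  · intro r m
    have h1 : (Submodule.mkQ (𝔪 • (⊤ : Submodule R M))) (r • m)
        = (Ideal.Quotient.mk 𝔪 r) • (Submodule.mkQ (𝔪 • (⊤ : Submodule R M)) m) := rfl
    show f (Submodule.mkQ (𝔪 • (⊤ : Submodule R M)) (r • m)) = _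
    rw [h1, map_smul, smul_eq_mul]
    rfl

/-- Nakayama + functional. -/
theorem gpra_exists_functional [Module.Finite ℤ R] [Module.Finite ℤ M]
    (hfaith : ∀ r : R, (∀ m : M, r • m = 0) → r = 0)
    {p : ℕ} (hp : p.Prime) {k : Type*} [Field k] [CharP k p] (χ : R →+* k) :
    ∃ x : M →+ k, x ≠ 0 ∧ ∀ (r : R) (m : M), x (r • m) = χ r * x m := by
  obtain ⟨-, -, x₀, hx₀, hx⟩ := gpra_exists_functional_quot hfaith hp χ
  let ι : R ⧸ RingHom.ker χ →+* k := RingHom.kerLift χ
  have hι : ∀ r : R, ι (Ideal.Quotient.mk _ r) = χ r := fun r => RingHom.kerLift_mk χ r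
  have hιinj : Function.Injective ι := RingHom.kerLift_injective χ
  refine ⟨(ι : R ⧸ RingHom.ker χ →+ k).comp x₀, ?_, ?_⟩
  · intro h
    apply hx₀
    refine AddMonoidHom.ext fun m => ?_
    apply hιinj
    have := DFunLike.congr_fun h m
    simp only [AddMonoidHom.comp_apply, AddMonoidHom.zero_apply] at this
    rw [AddMonoidHom.zero_apply, map_zero]
    exact this
  · intro r m
    rw [AddMonoidHom.comp_apply, hx, AddMonoidHom.comp_apply]
    show ι (_ * _) = _
    rw [map_mul, hι]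
    rfl

end Abstract

section Free

variable {M : Type*} [AddCommGroup M] [Module.Finite ℤ M] [Module.Free ℤ M] {I : Type*}

/-- **(C1)** -/
theorem gpr_alg_free
    (τ : I → (M →+ M)) (hcomm : ∀ i j, (τ i).comp (τ j) = (τ j).comp (τ i))
    (v : M →+ ℂ) (hv : v ≠ 0) (a : I → ℂ) (hva : ∀ i, v.comp (τ i) = a i • v) :
    (∀ i, IsIntegral ℤ (a i)) ∧
      ∀ {p : ℕ}, p.Prime → ∀ {k : Type*} [Field k] [CharP k p] (φ : integralClosure ℤ ℂ →+* k),
        ∃ x : M →+ k, x ≠ 0 ∧
          ∀ (i : I) (hi : IsIntegral ℤ (a i)), x.comp (τ i) = φ ⟨a i, hi⟩ • x := by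
  classical
  let T : I → Module.End ℤ M := fun i => (τ i).toIntLinearMap
  have hTcomm : ∀ x ∈ Set.range T, ∀ y ∈ Set.range T, x * y = y * x := by
    rintro _ ⟨i, rfl⟩ _ ⟨j, rfl⟩
    ext m
    exact DFunLike.congr_fun (hcomm i j) m
  let S : Subalgebra ℤ (Module.End ℤ M) := Algebra.adjoin ℤ (Set.range T)
  have : IsMulCommutative S := Algebra.isMulCommutative_adjoin ℤ hTcomm
  obtain ⟨m₀, hm₀⟩ : ∃ m₀, v m₀ ≠ 0 := by
    by_contra h
    push Not at h
    exact hv (AddMonoidHom.ext h)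
  have heig : ∀ s : Module.End ℤ M, s ∈ S → ∃ c : ℂ, ∀ m, v (s m) = c * v m := by
    intro s hs
    induction hs using Algebra.adjoin_induction with
    | mem x hx =>
      obtain ⟨i, rfl⟩ := hx
      refine ⟨a i, fun m => ?_⟩
      have := DFunLike.congr_fun (hva i) m
      simp only [AddMonoidHom.comp_apply, AddMonoidHom.smul_apply, smul_eq_mul] at this
      exact this
    | algebraMap r =>
      refine ⟨(r : ℂ), fun m => ?_⟩
      rw [Algebra.algebraMap_eq_smul_one, LinearMap.smul_apply, Module.End.one_apply, map_zsmul,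
        zsmul_eq_mul]
    | add x y _ _ hx hy =>
      obtain ⟨c, hc⟩ := hx
      obtain ⟨d, hd⟩ := hy
      exact ⟨c + d, fun m => by rw [LinearMap.add_apply, map_add, hc, hd, add_mul]⟩
    | mul x y _ _ hx hy =>
      obtain ⟨c, hc⟩ := hx
      obtain ⟨d, hd⟩ := hy
      exact ⟨c * d, fun m => by rw [Module.End.mul_apply, hc, hd]; ring⟩
  let χ₀fun : S → ℂ := fun s => v (s.1 m₀) / v m₀
  have hχ₀ : ∀ (s : S) (m : M), v (s.1 m) = χ₀fun s * v m := by
    intro s m
    obtain ⟨c, hc⟩ := heig s.1 s.2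
    have : χ₀fun s = c := by
      simp only [χ₀fun]
      rw [hc m₀]
      field_simp
    rw [this, hc]
  have hχ₀T : ∀ i, ∀ h : T i ∈ S, χ₀fun ⟨T i, h⟩ = a i := by
    intro i h
    simp only [χ₀fun]
    have := DFunLike.congr_fun (hva i) m₀
    simp only [AddMonoidHom.comp_apply, AddMonoidHom.smul_apply, smul_eq_mul] at this
    show v (τ i m₀) / v m₀ = a i
    rw [this]
    field_simp
  -- the eigencharacter
  let χ₀ : S →+* ℂ :=
    { toFun := χ₀fun
      map_one' := by
        show v ((1 : Module.End ℤ M) m₀) / v m₀ = 1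
        rw [Module.End.one_apply, div_self hm₀]
      map_mul' := by
        intro s t
        show v ((s.1 * t.1) m₀) / v m₀ = χ₀fun s * χ₀fun t
        rw [Module.End.mul_apply, hχ₀ s, hχ₀ t]
        field_simp
      map_zero' := by
        show v ((0 : Module.End ℤ M) m₀) / v m₀ = 0
        rw [LinearMap.zero_apply, map_zero, zero_div]
      map_add' := by
        intro s t
        show v ((s.1 + t.1) m₀) / v m₀ = χ₀fun s + χ₀fun t
        rw [LinearMap.add_apply, map_add, hχ₀ s, hχ₀ t]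
        field_simp }
  -- finiteness
  have hfinS : Module.Finite ℤ S := by
    have h1 : IsNoetherian ℤ (Module.End ℤ M) := isNoetherian_of_isNoetherianRing_of_finite ℤ _
    exact Module.Finite.of_injective (Subalgebra.val S).toLinearMap Subtype.val_injective
  have hintS : ∀ s : S, IsIntegral ℤ s := fun s => (Algebra.IsIntegral.of_finite ℤ S).isIntegral s
  have hintχ : ∀ s : S, IsIntegral ℤ (χ₀ s) := fun s => map_isIntegral_int χ₀ (hintS s)
  have hTS : ∀ i, T i ∈ S := fun i => Algebra.subset_adjoin ⟨i, rfl⟩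
  have hai : ∀ i, IsIntegral ℤ (a i) := by
    intro i
    have := hintχ ⟨T i, hTS i⟩
    rwa [show χ₀ ⟨T i, hTS i⟩ = a i from hχ₀T i (hTS i)] at this
  refine ⟨hai, ?_⟩
  intro p hp k _ _ φ
  let χ₀' : S →+* integralClosure ℤ ℂ := χ₀.codRestrict (integralClosure ℤ ℂ) hintχ
  let χ : S →+* k := φ.comp χ₀'
  have hsmul : ∀ (s : S) (m : M), s • m = s.1 m := fun _ _ => rfl
  obtain ⟨x, hx0, hx⟩ := gpra_exists_functional (R := S) (M := M)
    (fun r hr => Subtype.ext (LinearMap.ext fun m => by rw [← hsmul, hr m]; rfl)) hp χ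
  refine ⟨x, hx0, fun i hi => ?_⟩
  refine AddMonoidHom.ext fun m => ?_
  have h1 := hx ⟨T i, hTS i⟩ m
  rw [hsmul] at h1
  rw [AddMonoidHom.comp_apply, AddMonoidHom.smul_apply, smul_eq_mul]
  have h2 : χ ⟨T i, hTS i⟩ = φ ⟨a i, hi⟩ := by
    show φ (χ₀' ⟨T i, hTS i⟩) = _
    congr 1
    apply Subtype.ext
    exact hχ₀T i (hTS i)
  rw [← h2]
  exact h1

end Free

end Fermat.Agent.G
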