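import Mathlib
import Fermat.Agent.G.Per.AlgFree

/-!
# Program G, package Per: the multiplier ring of a period lattice

`Λ := ψ(H) ⊆ ℂ` is a finitely generated torsion free group; its multiplier ring
`O := {z : zΛ ⊆ Λ}` is a subring of `ℂ`, finite over `ℤ`, acting faithfully on `Λ`, and contains
all the eigenvalues.  Nakayama (`gpra_exists_functional_quot`) gives an `O`-semilinear functional
`Λ → O/𝔪`, `𝔪 = ker (φ|_O)`.
-/

set_option autoImplicit false

noncomputable section

namespace Fermat.Agent.G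

/-- the multiplier ring of a `ℤ`-submodule of `ℂ`. -/
def gprmMult (Λ : Submodule ℤ ℂ) : Subring ℂ where
  carrier := {z | ∀ l ∈ Λ, z * l ∈ Λ}
  mul_mem' := fun ha hb l hl => by rw [mul_assoc]; exact ha _ (hb _ hl)
  one_mem' := fun l hl => by rwa [one_mul]
  add_mem' := fun ha hb l hl => by rw [add_mul]; exact Λ.add_mem (ha _ hl) (hb _ hl)
  zero_mem' := fun l _ => by rw [zero_mul]; exact Λ.zero_mem
  neg_mem' := fun ha l hl => by rw [neg_mul]; exact Λ.neg_mem (ha _ hl)

theorem gprm_mem_mult {Λ : Submodule ℤ ℂ} {z : ℂ} :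
    z ∈ gprmMult Λ ↔ ∀ l ∈ Λ, z * l ∈ Λ := Iff.rfl

/-- the action of the multiplier ring, as a ring homomorphism to `End_ℤ Λ`. -/
def gprmRho (Λ : Submodule ℤ ℂ) : gprmMult Λ →+* Module.End ℤ Λ where
  toFun z :=
    { toFun := fun l => ⟨(z : ℂ) * l, z.2 l l.2⟩
      map_add' := fun l l' => Subtype.ext (by simp [mul_add])
      map_smul' := fun n l => Subtype.ext (by simp [mul_comm, mul_assoc]) }
  map_one' := by
    refine LinearMap.ext fun l => Subtype.ext ?_
    simp
  map_mul' z w := by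
    refine LinearMap.ext fun l => Subtype.ext ?_
    simp [mul_assoc]
  map_zero' := by
    refine LinearMap.ext fun l => Subtype.ext ?_
    simp
  map_add' z w := by
    refine LinearMap.ext fun l => Subtype.ext ?_
    simp [add_mul]

@[simp] theorem gprmRho_apply (Λ : Submodule ℤ ℂ) (z : gprmMult Λ) (l : Λ) :
    ((gprmRho Λ z l : Λ) : ℂ) = (z : ℂ) * l := rfl

theorem gprmRho_injective {Λ : Submodule ℤ ℂ} (hΛ : Λ ≠ ⊥) :
    Function.Injective (gprmRho Λ) := by
  rw [injective_iff_map_eq_zero]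
  intro z hz
  obtain ⟨l, hl, hl0⟩ := Submodule.exists_mem_ne_zero_of_ne_bot hΛ
  have := congrArg (fun e : Module.End ℤ Λ => ((e ⟨l, hl⟩ : Λ) : ℂ)) hz
  simp only [gprmRho_apply, LinearMap.zero_apply, ZeroMemClass.coe_zero] at this
  rcases mul_eq_zero.mp this with h | h
  · exact Subtype.ext h
  · exact absurd h hl0

/-- the multiplier ring of a nonzero finitely generated subgroup of `ℂ` is finite over `ℤ`. -/
theorem gprm_finite_mult {Λ : Submodule ℤ ℂ} (hfg : Λ.FG) (hΛ : Λ ≠ ⊥) :
    Module.Finite ℤ (gprmMult Λ) := by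
  have h1 : Module.Finite ℤ Λ := Module.Finite.iff_fg.mpr hfg
  have h2 : Module.Free ℤ Λ := Module.free_of_finite_type_torsion_free'
  have h3 : Module.Finite ℤ (Module.End ℤ Λ) := Module.Finite.linearMap ℤ ℤ Λ Λ
  have h4 : IsNoetherian ℤ (Module.End ℤ Λ) := isNoetherian_of_isNoetherianRing_of_finite ℤ _
  exact Module.Finite.of_injective (gprmRho Λ).toIntAlgHom.toLinearMap (gprmRho_injective hΛ)

/-- every element of the multiplier ring is an algebraic integer. -/
theorem gprm_isIntegral_of_mem {Λ : Submodule ℤ ℂ} (hfg : Λ.FG) (hΛ : Λ ≠ ⊥) {z : ℂ}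
    (hz : z ∈ gprmMult Λ) : IsIntegral ℤ z := by
  have := gprm_finite_mult hfg hΛ
  have h1 : IsIntegral ℤ (⟨z, hz⟩ : gprmMult Λ) :=
    (Algebra.IsIntegral.of_finite ℤ (gprmMult Λ)).isIntegral _
  exact map_isIntegral_int (gprmMult Λ).subtype h1

end Fermat.Agent.G
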