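import Fermat.Agent.S16.LB.HeckeDec

/-!
# Program G, package Per: definitions

* `gprIsPE γ` : `γ ∈ Γ₀(N)` is parabolic or elliptic (or `±1`): `(tr γ)² ≤ 4`.
* `gprPE N` : the subgroup of `Γ₀(N)^ab = s16lbAb N` generated by the classes of the parabolic and
  elliptic elements.
* `gprHomPE N A` : `Hom_pe(Γ₀(N), A)`, the characters `Γ₀(N)^ab → A` killing all parabolic and
  elliptic classes, as an additive subgroup of `s16lbAb N →+ A`.
* `gprT N ℓ` : the Hecke correspondence `T_ℓ` (`ℓ` prime, `ℓ ∤ N`) as an endomorphism of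
  `Γ₀(N)^ab` (junk value `0` otherwise).  It acts on characters by precomposition,
  `x ↦ x.comp (gprT N ℓ)`, naturally in the coefficient group.
-/

set_option autoImplicit false

namespace Fermat.Agent.G

open Fermat.Agent.S16LB CongruenceSubgroup
open scoped MatrixGroups

/-- `γ` is parabolic, elliptic or `±1`: `(tr γ)² ≤ 4`. -/
def gprIsPE {N : ℕ} (γ : Gamma0 N) : Prop :=
  (((γ : SL(2, ℤ)) : Matrix (Fin 2) (Fin 2) ℤ).trace) ^ 2 ≤ 4

/-- The subgroup of `Γ₀(N)^ab` generated by the parabolic and elliptic classes. -/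
def gprPE (N : ℕ) : AddSubgroup (s16lbAb N) :=
  AddSubgroup.closure {x | ∃ γ : Gamma0 N, gprIsPE γ ∧ s16lbCls N (Additive.ofMul γ) = x}

/-- `Hom_pe(Γ₀(N), A)`: characters killing the parabolic and elliptic elements. -/
def gprHomPE (N : ℕ) (A : Type*) [AddCommGroup A] : AddSubgroup (s16lbAb N →+ A) where
  carrier := {x | ∀ γ : Gamma0 N, gprIsPE γ → x (s16lbCls N (Additive.ofMul γ)) = 0}
  zero_mem' := fun _ _ => rfl
  add_mem' := by
    intro x y hx hy γ hγ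
    rw [AddMonoidHom.add_apply, hx γ hγ, hy γ hγ, add_zero]
  neg_mem' := by
    intro x hx γ hγ
    rw [AddMonoidHom.neg_apply, hx γ hγ, neg_zero]

theorem gpr_mem_homPE_iff {N : ℕ} {A : Type*} [AddCommGroup A] (x : s16lbAb N →+ A) :
    x ∈ gprHomPE N A ↔ ∀ γ : Gamma0 N, gprIsPE γ → x (s16lbCls N (Additive.ofMul γ)) = 0 :=
  Iff.rfl

theorem gpr_mem_homPE_iff_le_ker {N : ℕ} {A : Type*} [AddCommGroup A] (x : s16lbAb N →+ A) :
    x ∈ gprHomPE N A ↔ gprPE N ≤ x.ker := by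
  rw [gprPE, AddSubgroup.closure_le]
  constructor
  · rintro hx _ ⟨γ, hγ, rfl⟩
    exact hx γ hγ
  · intro hx γ hγ
    exact hx ⟨γ, hγ, rfl⟩

/-- post-composition preserves `Hom_pe`. -/
theorem gpr_postcomp_mem_homPE {N : ℕ} {A B : Type*} [AddCommGroup A] [AddCommGroup B]
    (u : A →+ B) {x : s16lbAb N →+ A} (hx : x ∈ gprHomPE N A) : u.comp x ∈ gprHomPE N B := by
  intro γ hγ
  rw [AddMonoidHom.comp_apply, hx γ hγ, map_zero]

/-- The Hecke correspondence `T_ℓ` on `Γ₀(N)^ab` (for `ℓ` prime, `ℓ ∤ N`; junk `0` otherwise). -/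
noncomputable def gprT (N ℓ : ℕ) : s16lbAb N →+ s16lbAb N :=
  if h : ℓ.Prime ∧ ¬ ℓ ∣ N then
    haveI : Fact ℓ.Prime := ⟨h.1⟩
    (s16lbDataT N ℓ h.2).trEnd
  else 0

theorem gprT_eq (N : ℕ) {ℓ : ℕ} [Fact ℓ.Prime] (h : ¬ ℓ ∣ N) :
    gprT N ℓ = (s16lbDataT N ℓ h).trEnd := by
  unfold gprT
  rw [dif_pos ⟨Fact.out, h⟩]

end Fermat.Agent.G
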