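/-
Program G, package Per, leaf B3 (row 491, helper11): the Hecke correspondences commute on
`Hom_pe(Γ₀(N), ℂ)` (Eichler–Shimura `S21` + commutativity of the Hecke operators on cusp forms).
Statement VERBATIM from `G/Per/Spec.lean` (helper1 06684e6).  Helper lemmas are prefixed `gprc_`.
-/
import Fermat.Agent.G.Per.Defs
import Fermat.Agent.S16.LB.HeckePeriod
import Fermat.Agent.S21
import Fermat.Prelude.Thm_CuspForm_heckeTLin_comm

set_option autoImplicit false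

namespace Fermat.Agent.G

open P2MW.S_ModularForm_heckeT_slash_eq_self_of_mem_Gamma0.ModularForm.HeckeSlashInvariance
open Fermat.Agent.S16LB ModularForm CongruenceSubgroup ModularCurve ModularCurve.Period CuspForm
open scoped MatrixGroups ModularForm ComplexConjugate

/-- Eichler–Shimura equivariance for `T_ℓ`, `ℓ ∤ N`, general level. -/
theorem gprc_period_hecke (N : ℕ) [NeZero N] {ℓ : ℕ} (hℓ : ℓ.Prime) (hℓN : ¬ ℓ ∣ N)
    (f : CuspForm (Gamma0 N) 2) :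
    s16lbDesc (periodMap N (CuspForm.heckeTLin 2 hℓ hℓN f))
      = (s16lbDesc (periodMap N f)).comp (gprT N ℓ) := by
  have : Fact ℓ.Prime := ⟨hℓ⟩
  have : NeZero ℓ := ⟨hℓ.ne_zero⟩
  rw [gprT_eq N hℓN]
  refine s16lb_periodMap_hecke (ℓ := ℓ) N (s16lbDataT N ℓ hℓN) rfl
    id (fun _ => rfl) f _ (fun τ => ?_)
  rw [CuspForm.heckeTLin_apply_apply, heckeT_eq_sum_onePoint, Finset.sum_apply]
  rfl

/-- the commutation property -/
def GprcComm (N ℓ ℓ' : ℕ) (ψ : s16lbAb N →+ ℂ) : Prop :=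
  (ψ.comp (gprT N ℓ)).comp (gprT N ℓ') = (ψ.comp (gprT N ℓ')).comp (gprT N ℓ)

theorem gprcComm_add {N ℓ ℓ' : ℕ} {ψ₁ ψ₂ : s16lbAb N →+ ℂ} (h₁ : GprcComm N ℓ ℓ' ψ₁)
    (h₂ : GprcComm N ℓ ℓ' ψ₂) : GprcComm N ℓ ℓ' (ψ₁ + ψ₂) := by
  unfold GprcComm at *
  rw [AddMonoidHom.add_comp, AddMonoidHom.add_comp, AddMonoidHom.add_comp, AddMonoidHom.add_comp,
    h₁, h₂]

theorem gprcComm_neg {N ℓ ℓ' : ℕ} {ψ : s16lbAb N →+ ℂ} (h : GprcComm N ℓ ℓ' ψ) :
    GprcComm N ℓ ℓ' (-ψ) := by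
  unfold GprcComm at *
  refine AddMonoidHom.ext fun x => ?_
  have := DFunLike.congr_fun h x
  simp only [AddMonoidHom.comp_apply, AddMonoidHom.neg_apply] at this ⊢
  rw [this]

theorem gprcComm_postcomp {N ℓ ℓ' : ℕ} {ψ : s16lbAb N →+ ℂ} (u : ℂ →+ ℂ)
    (h : GprcComm N ℓ ℓ' ψ) : GprcComm N ℓ ℓ' (u.comp ψ) := by
  unfold GprcComm at *
  rw [AddMonoidHom.comp_assoc, AddMonoidHom.comp_assoc, AddMonoidHom.comp_assoc,
    AddMonoidHom.comp_assoc]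
  rw [AddMonoidHom.comp_assoc, AddMonoidHom.comp_assoc] at h
  rw [h]

theorem gprcComm_period (N : ℕ) [NeZero N] {ℓ ℓ' : ℕ} (hℓ : ℓ.Prime) (hℓN : ¬ ℓ ∣ N)
    (hℓ' : ℓ'.Prime) (hℓ'N : ¬ ℓ' ∣ N) (f : CuspForm (Gamma0 N) 2) :
    GprcComm N ℓ ℓ' (s16lbDesc (periodMap N f)) := by
  unfold GprcComm
  rw [← gprc_period_hecke N hℓ hℓN, ← gprc_period_hecke N hℓ' hℓ'N,
    ← gprc_period_hecke N hℓ' hℓ'N, ← gprc_period_hecke N hℓ hℓN]
  have hc := (CuspForm.heckeTLin_comm (N := N) 2 hℓ' hℓ'N hℓ hℓN).eq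
  have := LinearMap.congr_fun hc f
  rw [Module.End.mul_apply, Module.End.mul_apply] at this
  rw [this]

/-- **(B3)** the Hecke correspondences commute on `Hom_pe(Γ₀(N), ℂ)`. -/
theorem gprT_comm (N : ℕ) [NeZero N] (ℓ ℓ' : ℕ) {ψ : s16lbAb N →+ ℂ} (hψ : ψ ∈ gprHomPE N ℂ) :
    (ψ.comp (gprT N ℓ)).comp (gprT N ℓ') = (ψ.comp (gprT N ℓ')).comp (gprT N ℓ) := by
  by_cases h : ℓ.Prime ∧ ¬ ℓ ∣ N
  swap
  · have h0 : gprT N ℓ = 0 := by unfold gprT; rw [dif_neg h]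
    rw [h0, AddMonoidHom.comp_zero, AddMonoidHom.zero_comp, AddMonoidHom.comp_zero]
  by_cases h' : ℓ'.Prime ∧ ¬ ℓ' ∣ N
  swap
  · have h0 : gprT N ℓ' = 0 := by unfold gprT; rw [dif_neg h']
    rw [h0, AddMonoidHom.comp_zero, AddMonoidHom.comp_zero, AddMonoidHom.zero_comp]
  obtain ⟨hℓ, hℓN⟩ := h
  obtain ⟨hℓ', hℓ'N⟩ := h'
  show GprcComm N ℓ ℓ' ψ
  -- `ψ ∘ cls` is a parabolic character
  have hpar : ψ.comp (s16lbCls N) ∈ parabolicHoms ℂ (Gamma0 N) ℂ := by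
    rw [mem_parabolicHoms_iff]
    intro γ hγ
    rw [AddMonoidHom.comp_apply]
    refine hψ γ ?_
    unfold gprIsPE
    rw [hγ]
  rw [← (Fermat.Agent.S21.result N).2] at hpar
  obtain ⟨⟨f, g⟩, hfg⟩ := hpar
  have hψeq : ψ = s16lbDesc (periodHomPair N (f, g)) := by
    rw [hfg, s16lbDesc_comp_eq]
  rw [hψeq, Fermat.Agent.S21.periodHomPair_eq]
  simp only [LinearMap.coprod_apply, LinearMap.comp_apply, LinearMap.add_apply,
    LinearMap.sub_apply, LinearMap.id_apply, Fermat.Agent.S21.pml_apply]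
  let cj : ℂ →+ ℂ := (starRingEnd ℂ).toAddMonoidHom
  have hι : ∀ f : CuspForm (Gamma0 N) 2,
      s16lbDesc (charInvolution N ℂ ℂ (periodMap N f))
        = - (cj.comp (s16lbDesc (periodMap N (Fermat.Agent.S21.conjForm N f)))) := by
    intro f
    refine s16lbAb_ext fun γ => ?_
    rw [s16lbDesc_cls, Fermat.Agent.S21.charInvolution_periodMap]
    simp [cj]
  have c1 := gprcComm_period N hℓ hℓN hℓ' hℓ'N f
  have c2 := gprcComm_period N hℓ hℓN hℓ' hℓ'N g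
  have c3 := gprcComm_neg (gprcComm_postcomp cj
    (gprcComm_period N hℓ hℓN hℓ' hℓ'N (Fermat.Agent.S21.conjForm N f)))
  have c4 := gprcComm_neg (gprcComm_postcomp cj
    (gprcComm_period N hℓ hℓN hℓ' hℓ'N (Fermat.Agent.S21.conjForm N g)))
  rw [← hι f] at c3
  rw [← hι g] at c4
  rw [sub_eq_add_neg, s16lbDesc_add, s16lbDesc_add, s16lbDesc_add,
    show (-(charInvolution N ℂ ℂ (periodMap N g)) : Additive (Gamma0 N) →+ ℂ)
      = (-1 : ℤ) • charInvolution N ℂ ℂ (periodMap N g) by rw [neg_one_zsmul],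
    s16lbDesc_zsmul, neg_one_zsmul]
  exact gprcComm_add (gprcComm_add c1 c3) (gprcComm_add c2 (gprcComm_neg c4))

end Fermat.Agent.G
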