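import Fermat.Agent.G.Per.Defs

/-!
# Program G, package Per, leaf A1: `Γ₀(N)^ab` is finitely generated

`SL₂(ℤ) = ⟨S, T⟩` (Mathlib), `Γ₀(N)` has finite index (`N ≠ 0`), Schreier's lemma, quotient.
-/

set_option autoImplicit false

namespace Fermat.Agent.G

open Fermat.Agent.S16LB CongruenceSubgroup
open scoped MatrixGroups

theorem gprf_SL2Z_fg : Group.FG SL(2, ℤ) := by
  rw [Group.fg_iff]
  refine ⟨{ModularGroup.S, ModularGroup.T}, SpecialLinearGroup.SL2Z_generators, ?_⟩
  exact Set.toFinite _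

theorem gprf_Gamma0_fg (N : ℕ) [NeZero N] : Group.FG (Gamma0 N) := by
  have : Group.FG SL(2, ℤ) := gprf_SL2Z_fg
  infer_instance

/-- **(A1)** `Γ₀(N)^ab` is finitely generated. -/
theorem gpr_ab_fg (N : ℕ) [NeZero N] : AddGroup.FG (s16lbAb N) := by
  have : Group.FG (Gamma0 N) := gprf_Gamma0_fg N
  have : Group.FG (Abelianization (Gamma0 N)) :=
    Group.fg_of_surjective (f := Abelianization.of)
      (QuotientGroup.mk_surjective (s := commutator (Gamma0 N)))
  exact GroupFG.iff_add_fg.1 inferInstance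

end Fermat.Agent.G
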