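/-
Program G, package Per, leaf A2 (row 487, helper11): the Hecke correspondences preserve the subgroup of
`Γ₀(N)^ab` generated by the parabolic and elliptic classes.  Statement VERBATIM from `G/Per/Spec.lean`
(helper1 06684e6).  Helper lemmas are prefixed `gprs_`.
-/
import Fermat.Agent.G.Per.Defs

set_option autoImplicit false

namespace Fermat.Agent.G

open Fermat.Agent.S16LB CongruenceSubgroup Matrix.SpecialLinearGroup
open scoped MatrixGroups BigOperators

/-! ### orbit sums -/

section Orbit

variable {I A : Type*} [DecidableEq I] [AddCommGroup A]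

/-- if all the sums along closed orbits segments of `σ` lie in `S`, so does the sum over any `σ`-stable
finite set -/
theorem gprs_sum_mem_of_stable (σ : Equiv.Perm I) (F : I → A) (S : AddSubgroup A)
    (h : ∀ (i : I) (n : ℕ), 0 < n → (⇑σ)^[n] i = i →
      ∑ j ∈ Finset.range n, F ((⇑σ)^[j] i) ∈ S) :
    ∀ s : Finset I, (∀ i ∈ s, σ i ∈ s) → ∑ i ∈ s, F i ∈ S := by
  intro s
  induction s using Finset.strongInduction with
  | H s ih =>
    intro hs
    rcases s.eq_empty_or_nonempty with rfl | ⟨i, hi⟩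
    · simp
    · have hper : i ∈ Function.periodicPts (⇑σ) := by
        have hfin : ∀ k : ℕ, (⇑σ)^[k] i ∈ s := by
          intro k
          induction k with
          | zero => exact hi
          | succ k ihk =>
            rw [Function.iterate_succ_apply']
            exact hs _ ihk
        -- pigeonhole on the finite set `s`
        obtain ⟨a, -, b, -, hab, heq⟩ := Finset.exists_ne_map_eq_of_card_lt_of_maps_to
          (s := Finset.range (s.card + 1)) (t := s) (by simp)
          (f := fun k => (⇑σ)^[k] i) (fun k _ => hfin k)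
        wlog hlt : a < b generalizing a b
        · exact this b a hab.symm heq.symm (lt_of_le_of_ne (not_lt.mp hlt) hab.symm)
        refine Function.mk_mem_periodicPts (Nat.sub_pos_of_lt hlt) ?_
        have h1 : (⇑σ)^[a] ((⇑σ)^[b - a] i) = (⇑σ)^[a] i := by
          rw [← Function.iterate_add_apply, Nat.add_sub_cancel' hlt.le]
          exact heq.symm
        exact (Function.Injective.iterate σ.injective a) h1
      set n := Function.minimalPeriod (⇑σ) i with hn
      have hn0 : 0 < n := Function.minimalPeriod_pos_of_mem_periodicPts hper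
      have hnper : (⇑σ)^[n] i = i := Function.isPeriodicPt_minimalPeriod (⇑σ) i
      set O : Finset I := (Finset.range n).image (fun j => (⇑σ)^[j] i) with hO
      have hiter : ∀ k : ℕ, (⇑σ)^[k] i ∈ s := by
        intro k
        induction k with
        | zero => exact hi
        | succ k ihk =>
          rw [Function.iterate_succ_apply']
          exact hs _ ihk
      have hOs : O ⊆ s := by
        intro y hy
        obtain ⟨j, -, rfl⟩ := Finset.mem_image.mp hy
        exact hiter j
      have hiO : i ∈ O := Finset.mem_image.mpr ⟨0, Finset.mem_range.mpr hn0, rfl⟩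
      have hsumO : ∑ y ∈ O, F y = ∑ j ∈ Finset.range n, F ((⇑σ)^[j] i) := by
        rw [hO, Finset.sum_image]
        intro a ha b hb hab
        exact Function.iterate_injOn_Iio_minimalPeriod (Finset.mem_range.mp ha)
          (Finset.mem_range.mp hb) hab
      have hstab : ∀ y ∈ s \ O, σ y ∈ s \ O := by
        intro y hy
        obtain ⟨hys, hyO⟩ := Finset.mem_sdiff.mp hy
        refine Finset.mem_sdiff.mpr ⟨hs y hys, fun hσ => hyO ?_⟩
        obtain ⟨j, hj, hjeq⟩ := Finset.mem_image.mp hσ
        rcases j with _ | k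
        · -- σ y = i = σ^[n] i
          have h1 : σ y = σ ((⇑σ)^[n - 1] i) := by
            have h2 : σ ((⇑σ)^[n - 1] i) = (⇑σ)^[n - 1 + 1] i :=
              (Function.iterate_succ_apply' (⇑σ) (n - 1) i).symm
            rw [h2, Nat.sub_add_cancel hn0, hnper]
            exact hjeq.symm
          rw [σ.injective h1]
          exact Finset.mem_image.mpr ⟨n - 1, Finset.mem_range.mpr (Nat.sub_lt hn0 one_pos), rfl⟩
        · have h1 : σ y = σ ((⇑σ)^[k] i) := by
            have h2 : σ ((⇑σ)^[k] i) = (⇑σ)^[k + 1] i :=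
              (Function.iterate_succ_apply' (⇑σ) k i).symm
            rw [h2]
            exact hjeq.symm
          rw [σ.injective h1]
          exact Finset.mem_image.mpr
            ⟨k, Finset.mem_range.mpr (lt_trans (Nat.lt_succ_self k) (Finset.mem_range.mp hj)), rfl⟩
      have hss : s \ O ⊂ s :=
        Finset.sdiff_ssubset hOs ⟨i, hiO⟩
      have h1 := ih (s \ O) hss hstab
      have h2 : ∑ y ∈ O, F y ∈ S := by
        rw [hsumO]
        exact h i n hn0 hnper
      rw [← Finset.sum_sdiff hOs]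
      exact S.add_mem h1 h2

end Orbit

/-! ### traces of powers in `SL₂(ℤ)` -/

theorem gprs_sq (M : Matrix (Fin 2) (Fin 2) ℤ) (hM : M.det = 1) :
    M * M = M.trace • M - 1 := by
  rw [Matrix.det_fin_two] at hM
  ext i j
  fin_cases i <;> fin_cases j <;>
    simp only [Matrix.mul_apply, Fin.sum_univ_two, Matrix.trace_fin_two, Matrix.sub_apply,
      Matrix.smul_apply, smul_eq_mul, Matrix.one_apply, Fin.zero_eta, Fin.mk_one, Fin.isValue,
      if_true, one_ne_zero, zero_ne_one, if_false] <;>
    first | ring1 | linear_combination (-1 : ℤ) * hM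

theorem gprs_trace_pow_rec (M : Matrix (Fin 2) (Fin 2) ℤ) (hM : M.det = 1) (n : ℕ) :
    (M ^ (n + 2)).trace = M.trace * (M ^ (n + 1)).trace - (M ^ n).trace := by
  have h1 : M ^ (n + 2) = M.trace • M ^ (n + 1) - M ^ n := by
    rw [pow_add, pow_two, gprs_sq M hM, mul_sub, mul_one, Matrix.mul_smul, ← pow_succ]
  rw [h1, Matrix.trace_sub, Matrix.trace_smul, smul_eq_mul]

theorem gprs_trace_pow_sq_le (M : Matrix (Fin 2) (Fin 2) ℤ) (hM : M.det = 1)
    (ht : M.trace ^ 2 ≤ 4) (n : ℕ) : (M ^ n).trace ^ 2 ≤ 4 := by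
  set t := M.trace with htdef
  have htb : -2 ≤ t ∧ t ≤ 2 := by constructor <;> nlinarith
  have key : ∀ n : ℕ, (M ^ n).trace ^ 2 ≤ 4 ∧ (M ^ (n + 1)).trace ^ 2 ≤ 4 ∧
      (M ^ n).trace ^ 2 - t * (M ^ n).trace * (M ^ (n + 1)).trace + (M ^ (n + 1)).trace ^ 2
        = 4 - t ^ 2 := by
    intro n
    induction n with
    | zero =>
      have h0 : (M ^ 0).trace = 2 := by simp
      have h1 : (M ^ (0 + 1)).trace = t := by simp [htdef]
      rw [h0, h1]
      refine ⟨by norm_num, ht, by ring⟩
    | succ n ih =>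
      obtain ⟨hx, hy, hq⟩ := ih
      have hrec := gprs_trace_pow_rec M hM n
      rw [← htdef] at hrec
      set x := (M ^ n).trace
      set y := (M ^ (n + 1)).trace
      rw [show n + 1 + 1 = n + 2 from rfl, hrec]
      refine ⟨hy, ?_, by linear_combination hq⟩
      set z := t * y - x with hz
      have hq' : y ^ 2 - t * y * z + z ^ 2 = 4 - t ^ 2 := by rw [hz]; linear_combination hq
      have hid : (2 * y - t * z) ^ 2 + (4 - t ^ 2) * z ^ 2 = 4 * (4 - t ^ 2) := by
        linear_combination 4 * hq'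
      by_cases ht4 : t ^ 2 = 4
      · have h0 : (2 * y - t * z) ^ 2 = 0 := by rw [ht4] at hid; linarith
        have h1 : 2 * y = t * z := by
          have := pow_eq_zero_iff (two_ne_zero) |>.mp h0
          linarith
        have h2 : 4 * y ^ 2 = 4 * z ^ 2 := by
          have : (2 * y) ^ 2 = (t * z) ^ 2 := by rw [h1]
          rw [mul_pow, mul_pow, ht4] at this
          linarith
        linarith
      · have ht3 : t ^ 2 ≤ 3 := by
          rcases lt_or_eq_of_le ht with h | h
          · omega
          · exact absurd h ht4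
        by_contra hcon
        have h5 : 5 ≤ z ^ 2 := by omega
        nlinarith [sq_nonneg (2 * y - t * z)]
  exact (key n).1

/-! ### the cocycle along an orbit -/

section Cocycle

variable {𝔾 Γ I : Type*} [Group 𝔾] [Group Γ] (H : S16lbHeckeData 𝔾 Γ I)

theorem gprs_coc_pow (γ : Γ) (i : I) (n : ℕ) :
    H.idx (γ ^ n) i = (⇑(H.perm γ))^[n] i ∧
      Additive.ofMul (Abelianization.of (H.coc (γ ^ n) i))
        = ∑ j ∈ Finset.range n,
            Additive.ofMul (Abelianization.of (H.coc γ ((⇑(H.perm γ))^[j] i))) := by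
  induction n with
  | zero =>
    rw [pow_zero, (H.idx_one i).1, (H.idx_one i).2]
    simp
  | succ n ih =>
    obtain ⟨h1, h2⟩ := ih
    obtain ⟨h3, h4⟩ := H.idx_mul (γ ^ n) γ i
    rw [pow_succ]
    refine ⟨?_, ?_⟩
    · rw [h3, h1, Function.iterate_succ_apply']
      rfl
    · rw [h4, map_mul, ofMul_mul, h2, h1, Finset.sum_range_succ]

end Cocycle

/-! ### the statement -/

theorem gprs_trace_mapGL (g : SL(2, ℤ)) :
    ((mapGL ℝ g : GL (Fin 2) ℝ) : Matrix (Fin 2) (Fin 2) ℝ).trace
      = (((g : Matrix (Fin 2) (Fin 2) ℤ).trace : ℤ) : ℝ) := by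
  rw [s16lb_val_mapGL, Matrix.trace_fin_two, Matrix.trace_fin_two]
  simp

theorem gprs_trace_eq_of_conj {a : GL (Fin 2) ℝ} {g g' : SL(2, ℤ)}
    (h : a * mapGL ℝ g = mapGL ℝ g' * a) :
    (g' : Matrix (Fin 2) (Fin 2) ℤ).trace = (g : Matrix (Fin 2) (Fin 2) ℤ).trace := by
  have h1 : (mapGL ℝ g' : GL (Fin 2) ℝ) = a * mapGL ℝ g * a⁻¹ := by
    rw [h, mul_inv_cancel_right]
  have h2 : ((mapGL ℝ g' : GL (Fin 2) ℝ) : Matrix (Fin 2) (Fin 2) ℝ).trace
      = ((mapGL ℝ g : GL (Fin 2) ℝ) : Matrix (Fin 2) (Fin 2) ℝ).trace := by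
    rw [h1, Units.val_mul, Units.val_mul]
    exact Matrix.trace_units_conj a _
  rw [gprs_trace_mapGL, gprs_trace_mapGL] at h2
  exact_mod_cast h2

theorem gprs_isPE_pow {N : ℕ} {γ : Gamma0 N} (hγ : gprIsPE γ) (n : ℕ) : gprIsPE (γ ^ n) := by
  unfold gprIsPE at hγ ⊢
  have h1 : (((γ ^ n : Gamma0 N) : SL(2, ℤ)) : Matrix (Fin 2) (Fin 2) ℤ)
      = ((γ : SL(2, ℤ)) : Matrix (Fin 2) (Fin 2) ℤ) ^ n := by
    rw [Subgroup.coe_pow, Matrix.SpecialLinearGroup.coe_pow]
  rw [h1]
  exact gprs_trace_pow_sq_le _ (γ : SL(2, ℤ)).det_coe hγ n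

/-- **(A2)** the Hecke correspondences preserve the parabolic + elliptic subgroup. -/
theorem gprT_mem_PE (N ℓ : ℕ) {x : s16lbAb N} (hx : x ∈ gprPE N) : gprT N ℓ x ∈ gprPE N := by
  classical
  by_cases h : ℓ.Prime ∧ ¬ ℓ ∣ N
  · have : Fact ℓ.Prime := ⟨h.1⟩
    rw [gprT_eq N h.2]
    set H := s16lbDataT N ℓ h.2 with hH
    unfold gprPE at hx
    induction hx using AddSubgroup.closure_induction with
    | mem x hx =>
      obtain ⟨γ, hγ, rfl⟩ := hx
      have h1 : H.trEnd (s16lbCls N (Additive.ofMul γ))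
          = ∑ i, Additive.ofMul (Abelianization.of (H.coc γ i)) := H.trEnd_of γ
      rw [h1]
      have h2 := gprs_sum_mem_of_stable (H.perm γ)
        (fun i => (Additive.ofMul (Abelianization.of (H.coc γ i)) : s16lbAb N)) (gprPE N) ?_
        Finset.univ (fun i _ => Finset.mem_univ _)
      · exact h2
      · intro i n hn hper
        obtain ⟨h3, h4⟩ := gprs_coc_pow H γ i n
        rw [← h4]
        refine AddSubgroup.subset_closure ⟨H.coc (γ ^ n) i, ?_, rfl⟩
        have hspec := H.spec (γ ^ n) i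
        rw [h3, hper] at hspec
        have htr := gprs_trace_eq_of_conj (a := H.α i)
          (g := ((γ ^ n : Gamma0 N) : SL(2, ℤ))) (g' := ((H.coc (γ ^ n) i : Gamma0 N) : SL(2, ℤ)))
          hspec
        have hpow := gprs_isPE_pow hγ n
        unfold gprIsPE at hpow ⊢
        rw [htr]
        exact hpow
    | zero => rw [map_zero]; exact (gprPE N).zero_mem
    | add x y _ _ hx hy => rw [map_add]; exact (gprPE N).add_mem hx hy
    | neg x _ hx => rw [map_neg]; exact (gprPE N).neg_mem hx
  · unfold gprT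
    rw [dif_neg h]
    exact (gprPE N).zero_mem

end Fermat.Agent.G
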