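/-
Program G, package Per, leaf B1 (row 489): a normalized eigenform is an eigenvector of `T_ℓ`.
-/
import Fermat.Agent.S49.Arith
import Fermat.Prelude.Def_FLTPrelim_Modularity

set_option autoImplicit false

namespace Fermat.Agent.G

open CongruenceSubgroup ModularFormClass Fermat.Agent.S49

/-- the coefficient identity behind `T_ℓ g = a_ℓ g` -/
theorem gprg_coeff {N : ℕ} {g : CuspForm (Gamma0 N) 2} (hg : g.IsNormalizedEigenform)
    {ℓ : ℕ} (hℓ : ℓ.Prime) (hℓN : ¬ ℓ ∣ N) (n : ℕ) :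
    ModularForm.coeffHeckeT 2 ℓ (qCoeff ⇑g) n = qCoeff ⇑g ℓ * qCoeff ⇑g n := by
  have hpow : ((ℓ : ℂ)) ^ ((2 : ℤ) - 1) = (ℓ : ℂ) := by norm_num
  rw [ModularForm.coeffHeckeT_apply, hpow]
  rcases Nat.eq_zero_or_pos n with h0 | hpos
  · subst h0
    rw [zero_mul, Nat.zero_div, if_pos (dvd_zero ℓ), qc_zero_coeff g]
    ring
  · obtain ⟨r, m, hm, hn⟩ := Nat.exists_eq_pow_mul_and_not_dvd hpos.ne' ℓ hℓ.ne_one
    have hcop : ∀ s : ℕ, Nat.Coprime (ℓ ^ s) m := fun s =>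
      Nat.Coprime.pow_left s ((Nat.Prime.coprime_iff_not_dvd hℓ).mpr hm)
    have hnl : n * ℓ = ℓ ^ (r + 1) * m := by rw [hn, pow_succ]; ring
    rw [hnl, hg.qCoeff_mul_of_coprime _ _ (hcop (r + 1)), hn,
      hg.qCoeff_mul_of_coprime _ _ (hcop r)]
    rcases r with _ | r
    · have hnd : ¬ ℓ ∣ ℓ ^ 0 * m := by rwa [pow_zero, one_mul]
      rw [if_neg hnd, zero_add, pow_one, pow_zero, hg.qCoeff_one]
      ring
    · have hd : ℓ ∣ ℓ ^ (r + 1) * m := Dvd.dvd.mul_right (dvd_pow_self ℓ (Nat.succ_ne_zero r)) m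
      have hdiv : ℓ ^ (r + 1) * m / ℓ = ℓ ^ r * m := by
        rw [pow_succ, mul_comm (ℓ ^ r) ℓ, mul_assoc, Nat.mul_div_cancel_left _ hℓ.pos]
      rw [if_pos hd, hdiv, hg.qCoeff_mul_of_coprime _ _ (hcop r),
        hg.qCoeff_prime_pow_of_not_dvd ℓ r hℓ hℓN]
      ring

/-- **(B1)** a normalized eigenform is an eigenvector of `T_ℓ`, `ℓ ∤ N`, with eigenvalue its
`ℓ`-th `q`-coefficient. -/
theorem gpr_heckeT_eigen {N : ℕ} {g : CuspForm (Gamma0 N) 2} (hg : g.IsNormalizedEigenform)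
    {ℓ : ℕ} (hℓ : ℓ.Prime) (hℓN : ¬ ℓ ∣ N) :
    CuspForm.heckeTLin 2 hℓ hℓN g = ModularFormClass.qCoeff g ℓ • g := by
  have hN : NeZero N := ⟨by rintro rfl; exact hℓN (dvd_zero ℓ)⟩
  apply qc_injective N 2
  funext n
  rw [qc_apply, qc_apply, qc_heckeTLin hℓ hℓN, qc_smul]
  exact gprg_coeff hg hℓ hℓN n

end Fermat.Agent.G
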