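import Fermat.Agent.G.Per.Defs

/-!
# Program G, package Per, leaf A3: parabolic characters with torsion-free values kill the elliptic
elements

An element `γ ∈ SL₂(ℤ)` with `(tr γ)² ≤ 4` is parabolic (`(tr γ)² = 4`) or satisfies `γ ^ 12 = 1`
(`tr γ ∈ {0, 1, -1}`, Cayley–Hamilton `γ² = (tr γ) γ - 1`).
-/

set_option autoImplicit false

namespace Fermat.Agent.G

open Fermat.Agent.S16LB CongruenceSubgroup ModularCurve ModularCurve.Period
open scoped MatrixGroups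

/-- Cayley–Hamilton for `2 × 2` integer matrices of determinant one. -/
theorem gpre_sq (M : Matrix (Fin 2) (Fin 2) ℤ) (hdet : M.det = 1) :
    M * M = M.trace • M - 1 := by
  rw [Matrix.det_fin_two] at hdet
  ext i j
  rw [Matrix.sub_apply, Matrix.smul_apply, Matrix.mul_apply, Fin.sum_univ_two,
    Matrix.trace_fin_two, smul_eq_mul]
  fin_cases i <;> fin_cases j
  · show M 0 0 * M 0 0 + M 0 1 * M 1 0 = (M 0 0 + M 1 1) * M 0 0 - 1
    linear_combination (-1 : ℤ) * hdet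
  · show M 0 0 * M 0 1 + M 0 1 * M 1 1 = (M 0 0 + M 1 1) * M 0 1 - 0
    ring
  · show M 1 0 * M 0 0 + M 1 1 * M 1 0 = (M 0 0 + M 1 1) * M 1 0 - 0
    ring
  · show M 1 0 * M 0 1 + M 1 1 * M 1 1 = (M 0 0 + M 1 1) * M 1 1 - 1
    linear_combination (-1 : ℤ) * hdet

theorem gpre_pow_twelve (M : Matrix (Fin 2) (Fin 2) ℤ) (hdet : M.det = 1)
    (ht : M.trace = 0 ∨ M.trace = 1 ∨ M.trace = -1) : M ^ 12 = 1 := by
  have hsq := gpre_sq M hdet
  rcases ht with ht | ht | ht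
  · rw [ht, zero_smul, zero_sub] at hsq
    have h2 : M ^ 2 = -1 := by rw [pow_two, hsq]
    calc M ^ 12 = (M ^ 2) ^ 6 := by rw [← pow_mul]
      _ = 1 := by rw [h2]; exact Even.neg_one_pow (by decide)
  · rw [ht, one_smul] at hsq
    have h2 : M ^ 2 = M - 1 := by rw [pow_two, hsq]
    have h3 : M ^ 3 = -1 := by
      calc M ^ 3 = M ^ 2 * M := by rw [pow_succ]
        _ = (M - 1) * M := by rw [h2]
        _ = M * M - M := by rw [sub_mul, one_mul]
        _ = -1 := by rw [hsq]; abel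
    calc M ^ 12 = (M ^ 3) ^ 4 := by rw [← pow_mul]
      _ = 1 := by rw [h3]; exact Even.neg_one_pow (by decide)
  · rw [ht, neg_one_smul] at hsq
    have h2 : M ^ 2 = -M - 1 := by rw [pow_two, hsq]
    have h3 : M ^ 3 = 1 := by
      calc M ^ 3 = M ^ 2 * M := by rw [pow_succ]
        _ = (-M - 1) * M := by rw [h2]
        _ = -(M * M) - M := by rw [sub_mul, one_mul, neg_mul]
        _ = 1 := by rw [hsq]; abel
    calc M ^ 12 = (M ^ 3) ^ 4 := by rw [← pow_mul]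
      _ = 1 := by rw [h3, one_pow]

theorem gpre_trace_cases {t : ℤ} (h : t ^ 2 ≤ 4) :
    t ^ 2 = 4 ∨ t = 0 ∨ t = 1 ∨ t = -1 := by
  have h1 : -2 ≤ t := by nlinarith
  have h2 : t ≤ 2 := by nlinarith
  interval_cases t <;> simp

/-- an element of `Γ₀(N)` with trace `0`, `1` or `-1` has order dividing `12` -/
theorem gpre_pow_twelve_Gamma0 {N : ℕ} (γ : Gamma0 N)
    (ht : (((γ : SL(2, ℤ)) : Matrix (Fin 2) (Fin 2) ℤ).trace = 0) ∨
      (((γ : SL(2, ℤ)) : Matrix (Fin 2) (Fin 2) ℤ).trace = 1) ∨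
      (((γ : SL(2, ℤ)) : Matrix (Fin 2) (Fin 2) ℤ).trace = -1)) : γ ^ 12 = 1 := by
  apply Subtype.ext
  apply Subtype.ext
  have h := gpre_pow_twelve ((γ : SL(2, ℤ)) : Matrix (Fin 2) (Fin 2) ℤ) (γ : SL(2, ℤ)).2 ht
  simpa using h

/-- **(A3)** -/
theorem gpr_mem_homPE_of_parabolic {N : ℕ} {A : Type*} [AddCommGroup A]
    [IsAddTorsionFree A] {ψ : Additive (Gamma0 N) →+ A}
    (hψ : IsParabolicHom (Gamma0 N) ψ) : s16lbDesc ψ ∈ gprHomPE N A := by
  intro γ hγ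
  rw [s16lbDesc_cls]
  rcases gpre_trace_cases hγ with h4 | h3
  · exact hψ γ h4
  · have h12 : γ ^ 12 = 1 := gpre_pow_twelve_Gamma0 γ h3
    have h1 : (12 : ℕ) • ψ (Additive.ofMul γ) = 0 := by
      rw [← map_nsmul, ← ofMul_pow, h12, ofMul_one, map_zero]
    exact (nsmul_eq_zero_iff_right (by norm_num)).1 h1

end Fermat.Agent.G
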