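/-
Program G, package Per, leaf B2 (row 490): the period character of a normalized eigenform is a
nonzero element of `Hom_pe(Γ₀(N), ℂ)` and an eigenvector of all `T_ℓ`, `ℓ ∤ N`.
-/
import Fermat.Agent.G.Per.Eigen
import Fermat.Agent.G.Per.Ell
import Fermat.Agent.S21
import Fermat.Agent.S16.LB.HeckePeriod
import Fermat.Prelude.Def_FLTPrelim_ModularRep

set_option autoImplicit false

namespace Fermat.Agent.G

open P2MW.S_ModularForm_heckeT_slash_eq_self_of_mem_Gamma0.ModularForm.HeckeSlashInvariance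
open ModularForm CongruenceSubgroup ModularCurve ModularCurve.Period CuspForm
open Fermat.Agent.S16LB
open scoped MatrixGroups ModularForm

/-- `periodMap` is `ℂ`-linear in the form. -/
theorem gprp_periodMap_smul (N : ℕ) [NeZero N] (c : ℂ) (g : CuspForm (Gamma0 N) 2) :
    periodMap N (c • g) = c • periodMap N g := by
  have h := (Fermat.Agent.S21.pml N).map_smul c g
  simpa only [Fermat.Agent.S21.pml_apply, RingHom.id_apply] using h

/-- the period map is injective (consequence of Eichler–Shimura `S21`). -/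
theorem gprp_periodMap_ne_zero (N : ℕ) [NeZero N] {g : CuspForm (Gamma0 N) 2} (hg : g ≠ 0) :
    periodMap N g ≠ 0 := by
  intro h0
  apply hg
  have hinj := (Fermat.Agent.S21.result N).1
  have hpml : Fermat.Agent.S21.pml N g = 0 := by rw [Fermat.Agent.S21.pml_apply, h0]
  have h1 : periodHomPair N (g, g) = 0 := by
    rw [Fermat.Agent.S21.periodHomPair_eq, LinearMap.coprod_apply, LinearMap.comp_apply,
      LinearMap.comp_apply, hpml, map_zero, map_zero, add_zero]
  have h2 : (g, g) = (0 : CuspForm (Gamma0 N) 2 × CuspForm (Gamma0 N) 2) :=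
    hinj (by rw [h1, map_zero])
  exact (Prod.ext_iff.mp h2).1

/-- descent is injective. -/
theorem gprp_desc_ne_zero {N : ℕ} {A : Type*} [AddCommGroup A] {ψ : Additive (Gamma0 N) →+ A}
    (hψ : ψ ≠ 0) : s16lbDesc ψ ≠ 0 := by
  intro h0
  apply hψ
  refine AddMonoidHom.ext fun γ => ?_
  rw [← s16lbDesc_cls ψ γ, h0]
  rfl

theorem gprp_desc_smul {N : ℕ} (c : ℂ) (ψ : Additive (Gamma0 N) →+ ℂ) :
    s16lbDesc (c • ψ) = c • s16lbDesc ψ := by
  refine s16lbAb_ext fun γ => ?_
  rw [s16lbDesc_cls, AddMonoidHom.smul_apply, AddMonoidHom.smul_apply, s16lbDesc_cls]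

/-- Eichler–Shimura equivariance for `T_ℓ`, `ℓ ∤ N`. -/
theorem gprp_hecke (N : ℕ) [NeZero N] (ℓ : ℕ) [Fact ℓ.Prime] (h : ¬ ℓ ∣ N)
    (f : CuspForm (Gamma0 N) 2) :
    s16lbDesc (periodMap N (CuspForm.heckeTLin 2 (Fact.out : ℓ.Prime) h f))
      = (s16lbDesc (periodMap N f)).comp (s16lbDataT N ℓ h).trEnd := by
  refine s16lb_periodMap_hecke (ℓ := ℓ) N (s16lbDataT N ℓ h) rfl
    id (fun _ => rfl) f _ (fun τ => ?_)
  rw [CuspForm.heckeTLin_apply_apply, heckeT_eq_sum_onePoint, Finset.sum_apply]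
  rfl

/-- **(B2)** the period character of a normalized eigenform is a nonzero element of
`Hom_pe(Γ₀(N), ℂ)`, and an eigenvector of all `T_ℓ`. -/
theorem gpr_period_eigen {N : ℕ} [NeZero N] {g : CuspForm (Gamma0 N) 2}
    (hg : g.IsNormalizedEigenform) :
    s16lbDesc (periodMap N g) ∈ gprHomPE N ℂ ∧ s16lbDesc (periodMap N g) ≠ 0 ∧
      ∀ ℓ : ℕ, ℓ.Prime → ¬ ℓ ∣ N →
        (s16lbDesc (periodMap N g)).comp (gprT N ℓ)
          = ModularFormClass.qCoeff g ℓ • s16lbDesc (periodMap N g) := by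
  refine ⟨?_, ?_, fun ℓ hℓ hℓN => ?_⟩
  · exact gpr_mem_homPE_of_parabolic
      (mem_parabolicHoms_iff.mp (Fermat.Agent.S21.periodMap_mem_parabolicHoms N g))
  · exact gprp_desc_ne_zero (gprp_periodMap_ne_zero N hg.ne_zero)
  · have : Fact ℓ.Prime := ⟨hℓ⟩
    rw [gprT_eq N hℓN, ← gprp_hecke N ℓ hℓN g, gpr_heckeT_eigen hg _ hℓN, gprp_periodMap_smul,
      gprp_desc_smul]

end Fermat.Agent.G
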