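import Fermat.Agent.G.Per.FieldFunctional
import Fermat.Agent.G.Per.Fg
import Fermat.Agent.G.Per.Period
import Fermat.Prelude.Def_CuspForm_HeckeAlgebra

/-!
# Program G, package Per: every character of the Hecke algebra, with values in ANY field, occurs in
`Hom_pe(Γ₀(N), K)` (`gprz_main`)

`𝕋 = CuspForm.heckeAlgebra N 2 S` (`S` an arbitrary set of primes), `K` any field (any
characteristic), `χ : 𝕋 →+* K`.  Then there is a nonzero `ψ ∈ Hom_pe(Γ₀(N), K)` with
`ψ ∘ T_ℓ = χ(T_ℓ) ψ` for every prime `ℓ ∤ N`, `ℓ ∉ S`.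

Proof: `𝕋` acts on the dual `S₂(Γ₀(N))^*` by transposition; the `𝕋`-span `M` of the period
functionals `ev_h : f ↦ ∫_h f` (`h ∈ Γ₀(N)^ab`, finitely generated) is a finitely generated
FAITHFUL `𝕋`-module (Eichler–Shimura injectivity `S21`); `ev_{T_ℓ h} = T_ℓ • ev_h`
(period–Hecke equivariance).  Apply `gprz_exists_functional` and put `ψ h = x (ev_h)`.
-/

set_option autoImplicit false

noncomputable section

namespace Fermat.Agent.G

open Fermat.Agent.S16LB CongruenceSubgroup ModularCurve ModularCurve.Period CuspForm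
open scoped MatrixGroups

variable (N : ℕ) [NeZero N]

theorem gprz_periodMap_add (f g : CuspForm (Gamma0 N) 2) :
    periodMap N (f + g) = periodMap N f + periodMap N g := by
  have h := (Fermat.Agent.S21.pml N).map_add f g
  simpa only [Fermat.Agent.S21.pml_apply] using h

omit [NeZero N] in
theorem gprz_desc_add {A : Type*} [AddCommGroup A] (ψ ψ' : Additive (Gamma0 N) →+ A) :
    s16lbDesc (ψ + ψ') = s16lbDesc ψ + s16lbDesc ψ' := by
  refine s16lbAb_ext fun γ => ?_
  rw [s16lbDesc_cls, AddMonoidHom.add_apply, AddMonoidHom.add_apply, s16lbDesc_cls, s16lbDesc_cls]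

/-- the period functional `ev_h : f ↦ ∫_h f` on `S₂(Γ₀(N))`. -/
def gprzEv (h : s16lbAb N) : Module.Dual ℂ (CuspForm (Gamma0 N) 2) where
  toFun f := s16lbDesc (periodMap N f) h
  map_add' f g := by
    rw [gprz_periodMap_add, gprz_desc_add, AddMonoidHom.add_apply]
  map_smul' c f := by
    rw [gprp_periodMap_smul, gprp_desc_smul, AddMonoidHom.smul_apply, RingHom.id_apply]

@[simp] theorem gprzEv_apply (h : s16lbAb N) (f : CuspForm (Gamma0 N) 2) :
    gprzEv N h f = s16lbDesc (periodMap N f) h := rfl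

theorem gprzEv_add (h h' : s16lbAb N) : gprzEv N (h + h') = gprzEv N h + gprzEv N h' := by
  refine LinearMap.ext fun f => ?_
  rw [LinearMap.add_apply, gprzEv_apply, gprzEv_apply, gprzEv_apply, map_add]

theorem gprzEv_zero : gprzEv N 0 = 0 := by
  refine LinearMap.ext fun f => ?_
  rw [LinearMap.zero_apply, gprzEv_apply, map_zero]

/-- the period functionals separate the cusp forms (Eichler–Shimura injectivity). -/
theorem gprzEv_separating {f : CuspForm (Gamma0 N) 2} (hf : ∀ h, gprzEv N h f = 0) : f = 0 := by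
  by_contra hne
  refine gprp_desc_ne_zero (gprp_periodMap_ne_zero N hne) ?_
  exact AddMonoidHom.ext fun h => hf h

/-- the period functional of a parabolic or elliptic class vanishes. -/
theorem gprzEv_of_isPE {γ : Gamma0 N} (hγ : gprIsPE γ) :
    gprzEv N (s16lbCls N (Additive.ofMul γ)) = 0 := by
  refine LinearMap.ext fun f => ?_
  rw [LinearMap.zero_apply, gprzEv_apply]
  exact gpr_mem_homPE_of_parabolic
    (mem_parabolicHoms_iff.mp (Fermat.Agent.S21.periodMap_mem_parabolicHoms N f)) γ hγ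

/-- period–Hecke equivariance: `ev_{T_ℓ h} = ev_h ∘ T_ℓ`. -/
theorem gprzEv_hecke {ℓ : ℕ} (hℓ : ℓ.Prime) (hℓN : ¬ ℓ ∣ N) (h : s16lbAb N) :
    gprzEv N (gprT N ℓ h) = (gprzEv N h).comp (CuspForm.heckeTLin 2 hℓ hℓN) := by
  have : Fact ℓ.Prime := ⟨hℓ⟩
  refine LinearMap.ext fun f => ?_
  rw [LinearMap.comp_apply, gprzEv_apply, gprzEv_apply, gprp_hecke N ℓ hℓN f, gprT_eq N hℓN,
    AddMonoidHom.comp_apply]

variable (S : Set ℕ)

/-- the transpose action of the Hecke algebra on the dual of `S₂(Γ₀(N))`. -/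
def gprzRho : heckeAlgebra N 2 S →+* Module.End ℂ (Module.Dual ℂ (CuspForm (Gamma0 N) 2)) where
  toFun t := Module.Dual.transpose (t : Module.End ℂ (CuspForm (Gamma0 N) 2))
  map_one' := by
    refine LinearMap.ext fun φ => LinearMap.ext fun f => ?_
    rfl
  map_mul' t s := by
    refine LinearMap.ext fun φ => LinearMap.ext fun f => ?_
    have hcomm : ((t * s : heckeAlgebra N 2 S) : Module.End ℂ (CuspForm (Gamma0 N) 2))
        = (s : Module.End ℂ (CuspForm (Gamma0 N) 2)) * t := by
      rw [mul_comm t s]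
      rfl
    show φ (((t * s : heckeAlgebra N 2 S) : Module.End ℂ (CuspForm (Gamma0 N) 2)) f) = _
    rw [hcomm]
    rfl
  map_zero' := by
    refine LinearMap.ext fun φ => LinearMap.ext fun f => ?_
    show φ ((0 : Module.End ℂ (CuspForm (Gamma0 N) 2)) f) = 0
    rw [LinearMap.zero_apply, map_zero]
  map_add' t s := by
    refine LinearMap.ext fun φ => LinearMap.ext fun f => ?_
    show φ (((t : Module.End ℂ (CuspForm (Gamma0 N) 2)) + s) f) = φ (_) + φ (_)
    rw [LinearMap.add_apply, map_add]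

theorem gprzRho_apply (t : heckeAlgebra N 2 S) (φ : Module.Dual ℂ (CuspForm (Gamma0 N) 2))
    (f : CuspForm (Gamma0 N) 2) :
    gprzRho N S t φ f = φ ((t : Module.End ℂ (CuspForm (Gamma0 N) 2)) f) := rfl

/-- **Main theorem of package Per over an arbitrary field**: every character of the Hecke algebra
(away from an arbitrary set `S`) with values in a field `K` occurs in `Hom_pe(Γ₀(N), K)`. -/
theorem gprz_main (S : Set ℕ) {K : Type*} [Field K] (χ : heckeAlgebra N 2 S →+* K) :
    ∃ ψ ∈ gprHomPE N K, ψ ≠ 0 ∧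
      ∀ (ℓ : ℕ) (hℓ : ℓ.Prime) (hℓN : ¬ ℓ ∣ N) (hℓS : ℓ ∉ S),
        ψ.comp (gprT N ℓ) = χ (heckeAlgebra.T hℓ hℓN hℓS) • ψ := by
  classical
  let _ : Module (heckeAlgebra N 2 S) (Module.Dual ℂ (CuspForm (Gamma0 N) 2)) :=
    Module.compHom _ (gprzRho N S)
  have hsmul : ∀ (t : heckeAlgebra N 2 S) (φ : Module.Dual ℂ (CuspForm (Gamma0 N) 2))
      (f : CuspForm (Gamma0 N) 2),
      (t • φ) f = φ ((t : Module.End ℂ (CuspForm (Gamma0 N) 2)) f) := fun _ _ _ => rfl
  -- the module
  obtain ⟨s, hs⟩ := (gpr_ab_fg N).out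
  let M : Submodule (heckeAlgebra N 2 S) (Module.Dual ℂ (CuspForm (Gamma0 N) 2)) :=
    Submodule.span (heckeAlgebra N 2 S) ((gprzEv N) '' (s : Set (s16lbAb N)))
  have hfin : Module.Finite (heckeAlgebra N 2 S) M :=
    Module.Finite.span_of_finite _ (s.finite_toSet.image _)
  have hmem : ∀ h : s16lbAb N, gprzEv N h ∈ M := by
    intro h
    have hh : h ∈ AddSubgroup.closure (s : Set (s16lbAb N)) := by rw [hs]; trivial
    induction hh using AddSubgroup.closure_induction with
    | mem x hx => exact Submodule.subset_span ⟨x, hx, rfl⟩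
    | zero => rw [gprzEv_zero]; exact M.zero_mem
    | add x y _ _ hx hy => rw [gprzEv_add]; exact M.add_mem hx hy
    | neg x _ hx =>
      have : gprzEv N (-x) = -gprzEv N x := by
        rw [eq_neg_iff_add_eq_zero, ← gprzEv_add, neg_add_cancel, gprzEv_zero]
      rw [this]
      exact M.neg_mem hx
  have hfaith : ∀ t : heckeAlgebra N 2 S, (∀ m : M, t • m = 0) → t = 0 := by
    intro t ht
    refine Subtype.ext (LinearMap.ext fun f => ?_)
    rw [ZeroMemClass.coe_zero, LinearMap.zero_apply]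
    refine gprzEv_separating N fun h => ?_
    have h0 := congrArg (fun m : M => (m : Module.Dual ℂ (CuspForm (Gamma0 N) 2)) f)
      (ht ⟨gprzEv N h, hmem h⟩)
    simpa only [Submodule.coe_smul, hsmul, Submodule.coe_zero, LinearMap.zero_apply] using h0
  obtain ⟨x, hx0, hx⟩ := gprz_exists_functional (M := M) hfaith χ
  -- the character
  let ψ : s16lbAb N →+ K :=
    { toFun := fun h => x ⟨gprzEv N h, hmem h⟩
      map_zero' := by
        have : (⟨gprzEv N 0, hmem 0⟩ : M) = 0 := Subtype.ext (gprzEv_zero N)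
        rw [this, map_zero]
      map_add' := fun h h' => by
        have : (⟨gprzEv N (h + h'), hmem (h + h')⟩ : M)
            = ⟨gprzEv N h, hmem h⟩ + ⟨gprzEv N h', hmem h'⟩ := Subtype.ext (gprzEv_add N h h')
        rw [this, map_add] }
  have hψ : ∀ h, ψ h = x ⟨gprzEv N h, hmem h⟩ := fun _ => rfl
  refine ⟨ψ, ?_, ?_, ?_⟩
  · intro γ hγ
    rw [hψ]
    have : (⟨gprzEv N (s16lbCls N (Additive.ofMul γ)), hmem _⟩ : M) = 0 :=
      Subtype.ext (gprzEv_of_isPE N hγ)
    rw [this, map_zero]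
  · intro h0
    apply hx0
    refine AddMonoidHom.ext fun m => ?_
    obtain ⟨m, hm⟩ := m
    rw [AddMonoidHom.zero_apply]
    induction hm using Submodule.span_induction with
    | mem y hy =>
      obtain ⟨h, -, rfl⟩ := hy
      have := DFunLike.congr_fun h0 h
      rw [hψ, AddMonoidHom.zero_apply] at this
      exact this
    | zero => exact map_zero x
    | add y z hy hz hy0 hz0 =>
      have : (⟨y + z, M.add_mem hy hz⟩ : M) = ⟨y, hy⟩ + ⟨z, hz⟩ := rfl
      rw [this, map_add, hy0, hz0, add_zero]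
    | smul t y hy hy0 =>
      have : (⟨t • y, M.smul_mem t hy⟩ : M) = t • ⟨y, hy⟩ := rfl
      rw [this, hx, hy0, mul_zero]
  · intro ℓ hℓ hℓN hℓS
    refine AddMonoidHom.ext fun h => ?_
    rw [AddMonoidHom.comp_apply, AddMonoidHom.smul_apply, hψ, hψ, smul_eq_mul, ← hx]
    congr 1
    refine Subtype.ext ?_
    show gprzEv N (gprT N ℓ h) = heckeAlgebra.T hℓ hℓN hℓS • gprzEv N h
    rw [gprzEv_hecke N hℓ hℓN h]
    refine LinearMap.ext fun f => ?_
    rw [hsmul]
    rfl

end Fermat.Agent.G
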