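import Mathlib

/-!
# Program G, package Per: eigen-functionals over an arbitrary field (`gprz_exists_functional`)

`R` a commutative ring, `M` a finitely generated faithful `R`-module, `K` ANY field (any
characteristic), `χ : R →+* K`.  Then there is a NONZERO additive map `x : M → K` with
`x (r • m) = χ r * x m`.

Proof: `𝔭 = ker χ` contains the annihilator `0` of `M`, so `𝔭` is in the support of `M`, so
`κ(𝔭) ⊗ M ≠ 0`; take a nonzero `κ(𝔭)`-linear functional and compose with `κ(𝔭) → K`.
-/

set_option autoImplicit false

noncomputable section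

namespace Fermat.Agent.G

open TensorProduct

/-- **Eigen-functionals over any field**: a finitely generated faithful module over a commutative
ring admits, for every character `χ` of the ring with values in a field `K`, a nonzero
`χ`-semilinear additive functional with values in `K`. -/
theorem gprz_exists_functional {R : Type*} [CommRing R] {M : Type*} [AddCommGroup M] [Module R M]
    [Module.Finite R M] (hfaith : ∀ r : R, (∀ m : M, r • m = 0) → r = 0)
    {K : Type*} [Field K] (χ : R →+* K) :
    ∃ x : M →+ K, x ≠ 0 ∧ ∀ (r : R) (m : M), x (r • m) = χ r * x m := by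
  classical
  have h𝔭 : (RingHom.ker χ).IsPrime := RingHom.ker_isPrime χ
  let P : PrimeSpectrum R := ⟨RingHom.ker χ, h𝔭⟩
  have hsupp : P ∈ Module.support R M := by
    rw [Module.mem_support_iff_of_finite]
    intro r hr
    have : r = 0 := hfaith r fun m => Module.mem_annihilator.mp hr m
    rw [this]
    exact Ideal.zero_mem _
  have hnt : Nontrivial ((RingHom.ker χ).ResidueField ⊗[R] M) :=
    (Module.mem_support_iff_nontrivial_residueField_tensorProduct P).mp hsupp
  obtain ⟨v, hv⟩ := exists_ne (0 : (RingHom.ker χ).ResidueField ⊗[R] M)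
  obtain ⟨g, hg⟩ := Module.Projective.exists_dual_ne_zero (RingHom.ker χ).ResidueField hv
  -- the lift `κ(𝔭) → K`
  have hunit : (RingHom.ker χ).primeCompl ≤ (IsUnit.submonoid K).comap χ := by
    intro r hr
    show IsUnit (χ r)
    rw [isUnit_iff_ne_zero]
    intro h0
    exact hr ((RingHom.mem_ker).mpr h0)
  let ι : (RingHom.ker χ).ResidueField →+* K :=
    Ideal.ResidueField.lift (RingHom.ker χ) χ le_rfl hunit
  have hι : ∀ r : R, ι (algebraMap R (RingHom.ker χ).ResidueField r) = χ r :=
    fun r => Ideal.ResidueField.lift_algebraMap (RingHom.ker χ) χ le_rfl hunit r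
  -- the functional
  let x₀ : M →+ (RingHom.ker χ).ResidueField :=
    (g.toAddMonoidHom).comp
      ((TensorProduct.mk R (RingHom.ker χ).ResidueField M 1).toAddMonoidHom)
  have hx₀ : ∀ m, x₀ m = g ((1 : (RingHom.ker χ).ResidueField) ⊗ₜ[R] m) := fun _ => rfl
  refine ⟨(ι : (RingHom.ker χ).ResidueField →+ K).comp x₀, ?_, ?_⟩
  · intro h0
    apply hg
    have hx0 : ∀ m, x₀ m = 0 := by
      intro m
      have := DFunLike.congr_fun h0 m
      simp only [AddMonoidHom.comp_apply, AddMonoidHom.zero_apply] at this
      exact ι.injective (by rw [map_zero]; exact this)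
    have hall : ∀ w : (RingHom.ker χ).ResidueField ⊗[R] M, g w = 0 := by
      intro w
      induction w using TensorProduct.induction_on with
      | zero => exact map_zero g
      | tmul a m =>
        have : a ⊗ₜ[R] m = a • ((1 : (RingHom.ker χ).ResidueField) ⊗ₜ[R] m) := by
          rw [TensorProduct.smul_tmul', smul_eq_mul, mul_one]
        rw [this, map_smul, ← hx₀, hx0, smul_zero]
      | add a b ha hb => rw [map_add, ha, hb, add_zero]
    exact hall v
  · intro r m
    simp only [AddMonoidHom.comp_apply]
    rw [hx₀, hx₀]
    have : (1 : (RingHom.ker χ).ResidueField) ⊗ₜ[R] (r • m) =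
        (algebraMap R (RingHom.ker χ).ResidueField r) •
          ((1 : (RingHom.ker χ).ResidueField) ⊗ₜ[R] m) := by
      rw [TensorProduct.tmul_smul, algebraMap_smul]
    rw [this, map_smul, smul_eq_mul]
    show ι (_ * _) = _
    rw [map_mul, hι]
    rfl

end Fermat.Agent.G
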