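import Mathlib
import Fermat.Agent.G.Per.Mult

/-!
# Program G, package Per: reduction mod `p` of an eigen-character (`gpr_reduce`)

Same statement as `gasm_reduce` of `G/Asm/Spec.lean` (row 497), proved through the multiplier ring
of the period lattice and Nakayama's lemma (`gpra_exists_functional_quot`).
-/

set_option autoImplicit false

noncomputable section

namespace Fermat.Agent.G

/-- **(RED)** reduction mod `p` of an eigen-character. -/
theorem gpr_reduce {H : Type*} [AddCommGroup H] (hH : AddGroup.FG H) {I : Type*}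
    (τ : I → H →+ H) (S : Set H) (a : I → integralClosure ℤ ℂ) (ψ : H →+ ℂ) (hψ : ψ ≠ 0)
    (hS : ∀ s ∈ S, ψ s = 0) (heig : ∀ i, ψ.comp (τ i) = (a i : ℂ) • ψ)
    {p : ℕ} [Fact p.Prime] {k : Type} [Field k] [CharP k p] (φ : integralClosure ℤ ℂ →+* k) :
    ∃ (κ : Type) (_ : Field κ) (_ : Finite κ) (_ : Algebra (ZMod p) κ) (ι : κ →+* k) (c : I → κ)
      (ψ' : H →+ κ), ψ' ≠ 0 ∧ (∀ s ∈ S, ψ' s = 0) ∧ (∀ i, ι (c i) = φ (a i)) ∧
        ∀ i, ψ'.comp (τ i) = c i • ψ' := by
  classical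
  have hp : p.Prime := Fact.out
  -- the period lattice
  let Λ : Submodule ℤ ℂ := LinearMap.range ψ.toIntLinearMap
  have hmemΛ : ∀ h : H, ψ h ∈ Λ := fun h => ⟨h, rfl⟩
  have hfg : Λ.FG := by
    have : Module.Finite ℤ H := Module.Finite.iff_addGroup_fg.mpr hH
    exact Module.Finite.iff_fg.mp (Module.Finite.range ψ.toIntLinearMap)
  have hΛ : Λ ≠ ⊥ := by
    intro h
    apply hψ
    refine AddMonoidHom.ext fun x => ?_
    have := hmemΛ x
    rw [h, Submodule.mem_bot] at this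
    exact this
  have hfinΛ : Module.Finite ℤ Λ := Module.Finite.iff_fg.mpr hfg
  have hfinO := gprm_finite_mult hfg hΛ
  -- the eigenvalues are multipliers
  have haO : ∀ i, ((a i : integralClosure ℤ ℂ) : ℂ) ∈ gprmMult Λ := by
    rintro i _ ⟨h, rfl⟩
    refine ⟨τ i h, ?_⟩
    have := DFunLike.congr_fun (heig i) h
    simpa using this
  -- module structure
  let _ : Module (gprmMult Λ) Λ := Module.compHom Λ (gprmRho Λ)
  have hsmul : ∀ (z : gprmMult Λ) (l : Λ), ((z • l : Λ) : ℂ) = (z : ℂ) * l := fun _ _ => rfl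
  have hfaith : ∀ r : gprmMult Λ, (∀ m : Λ, r • m = 0) → r = 0 := by
    intro r hr
    apply gprmRho_injective hΛ
    rw [map_zero]
    exact LinearMap.ext fun m => hr m
  -- the character
  let incl : gprmMult Λ →+* integralClosure ℤ ℂ :=
    (gprmMult Λ).subtype.codRestrict (integralClosure ℤ ℂ)
      (fun z => gprm_isIntegral_of_mem hfg hΛ z.2)
  let χ : gprmMult Λ →+* k := φ.comp incl
  obtain ⟨hmax, hfinκ, x, hx0, hx⟩ := gpra_exists_functional_quot hfaith hp χ
  let ι : gprmMult Λ ⧸ RingHom.ker χ →+* k := RingHom.kerLift χ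
  have hιinj : Function.Injective ι := RingHom.kerLift_injective χ
  let _ : Field (gprmMult Λ ⧸ RingHom.ker χ) := Ideal.Quotient.field (RingHom.ker χ)
  have : CharP (gprmMult Λ ⧸ RingHom.ker χ) p := RingHom.charP ι hιinj p
  let ψ' : H →+ (gprmMult Λ ⧸ RingHom.ker χ) :=
    x.comp ((ψ.toIntLinearMap.rangeRestrict : H →ₗ[ℤ] Λ) : H →+ Λ)
  have hψ'app : ∀ h : H, ψ' h = x ⟨ψ h, hmemΛ h⟩ := fun _ => rfl
  refine ⟨gprmMult Λ ⧸ RingHom.ker χ, inferInstance, hfinκ, ZMod.algebra _ p, ι,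
    fun i => Ideal.Quotient.mk _ ⟨(a i : ℂ), haO i⟩, ψ', ?_, ?_, ?_, ?_⟩
  · intro h0
    apply hx0
    refine AddMonoidHom.ext fun l => ?_
    obtain ⟨l, h, rfl⟩ := l
    have := DFunLike.congr_fun h0 h
    rw [hψ'app] at this
    exact this
  · intro s hs
    rw [hψ'app]
    have : (⟨ψ s, hmemΛ s⟩ : Λ) = 0 := Subtype.ext (hS s hs)
    rw [this, map_zero]
  · intro i
    show ι (Ideal.Quotient.mk _ _) = _
    rw [RingHom.kerLift_mk]
    show φ (incl _) = _
    congr 1
  · intro i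
    refine AddMonoidHom.ext fun h => ?_
    rw [AddMonoidHom.comp_apply, hψ'app, AddMonoidHom.smul_apply, hψ'app, smul_eq_mul, ← hx]
    congr 1
    apply Subtype.ext
    rw [hsmul]
    have := DFunLike.congr_fun (heig i) h
    simpa using this

end Fermat.Agent.G
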